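import Fermat.Agent.S48.NVH.Exp

set_option autoImplicit false
set_option linter.unusedSectionVars false

/-!
# S48 / NVH : Hecke and diamond equivariance of the character (twin of `NV/Hecke.lean` on `T24`)

`HasChr N m f χ` is the UNFOLDED form of the `T24`-twin of `S24.Ch.HasChar N m f χ` (`Chr N = ChrG (Gam N)`, `IsEqv N = IsEqvG (Gam N)`,
`IsRoot N m a h = MDiff h ∧ ∀ z, h z ^ m = PhiB N a z`), so the two are definitionally equal.
-/

open UpperHalfPlane ModularForm CongruenceSubgroup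
open scoped MatrixGroups Manifold

namespace Fermat.Agent.S48.NVH

open Fermat.Agent.S24 hiding FN A0 Btil actB PhiB thetaIncl Btil_le_perSub act_PhiB TInf_PhiB
  thetaIncl_injective thetaIncl_exists_div coe_actB Btil_le_holSub
open Fermat.Agent.T24 hiding sig
open Fermat.Agent.S48.PER1

/-- up to `m`-th powers, `f = h ^ m` with `h` holomorphic on `ℍ` and `h (γ z) = χ γ * h z`. -/
def HasChr (N : ℕ) [NeZero N] [Cond N] (m : ℕ) (f : FN N) (χ : ChrG (Gam N)) : Prop :=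
  ∃ (a : A0 N) (w : FN N) (h : ℍ → ℂ), a ≠ 0 ∧ w ≠ 0 ∧ thetaIncl N a = f * w ^ m ∧
    (MDiff h ∧ ∀ z, h z ^ m = (PhiB N a : ℍ → ℂ) z) ∧ IsEqvG (Gam N) χ h

theorem IsEqvG.mul {Γ : Subgroup SL(2, ℤ)} {χ χ' : ChrG Γ} {h h' : ℍ → ℂ} (h1 : IsEqvG Γ χ h)
    (h2 : IsEqvG Γ χ' h') : IsEqvG Γ (χ * χ') (h * h') := by
  intro γ z
  rw [Pi.mul_apply, Pi.mul_apply, h1 γ z, h2 γ z, MonoidHom.mul_apply, Units.val_mul]
  ring

variable (N : ℕ) [NeZero N] [Cond N]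

theorem mdiff_PhiB (a : A0 N) : MDiff (PhiB N a : ℍ → ℂ) := Btil_le_holSub N (PhiB N a).2

theorem PhiB_mul' (a b : A0 N) :
    (PhiB N (a * b) : ℍ → ℂ) = (PhiB N a : ℍ → ℂ) * (PhiB N b : ℍ → ℂ) := by
  rw [map_mul]; rfl

theorem PhiB_pow' (a : A0 N) (k : ℕ) : (PhiB N (a ^ k) : ℍ → ℂ) = (PhiB N a : ℍ → ℂ) ^ k := by
  rw [map_pow]; rfl

/-- the functions `PhiB N a` are `Gam N`-invariant. -/
theorem isEqvG_PhiB (a : A0 N) : IsEqvG (Gam N) 1 (PhiB N a : ℍ → ℂ) := by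
  intro γ z
  have h := act_PhiB N ((γ : SL(2, ℤ))⁻¹) ((Gam N).inv_mem γ.2) a
  have h2 := congrFun (congrArg Subtype.val h) z
  rw [coe_actB, act_apply, inv_inv] at h2
  rw [h2]
  simp

/-- Hecke equivariance of the character. -/
theorem hasChr_heckeFT {ℓ : ℕ} [NeZero ℓ] (hℓ : ℓ.Prime) (hℓN : ¬ ℓ ∣ N)
    (hG : GES1.G0 N ℓ (g0 N ℓ)) {m : ℕ} (hm : 0 < m) {f : FN N} {χ : ChrG (Gam N)}
    (h : HasChr N m f χ) :
    HasChr N m (GES1.heckeFT N ℓ (g0 N ℓ) f) (heckeChrG N (Gam N) hℓ χ) := by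
  obtain ⟨a, w₀, y, ha, hw₀, hth, ⟨hy, hroot⟩, heqv⟩ := h
  set TT := GES1.heckeFT N ℓ (g0 N ℓ) with hTT
  have hTT0 : ∀ x : FN N, x ≠ 0 → TT x ≠ 0 := by
    intro x hx h0
    have h1 : TT x * TT x⁻¹ = 1 := by rw [← map_mul, mul_inv_cancel₀ hx, map_one]
    rw [h0, zero_mul] at h1
    exact zero_ne_one h1
  have hth0 : thetaIncl N a ≠ 0 := fun h0 =>
    ha (thetaIncl_injective N (by rw [h0, map_zero]))
  obtain ⟨u, w, hw, huw⟩ := thetaIncl_exists_div N (TT (thetaIncl N a))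
  have hw' : thetaIncl N w ≠ 0 := fun h0 =>
    hw (thetaIncl_injective N (by rw [h0, map_zero]))
  have huw' : TT (thetaIncl N a) * thetaIncl N w = thetaIncl N u := by
    rw [huw, div_mul_cancel₀ _ hw']
  have hu : u ≠ 0 := by
    rintro rfl
    rw [map_zero] at huw'
    exact mul_ne_zero (hTT0 _ hth0) hw' huw'
  obtain ⟨k, rfl⟩ : ∃ k, m = k + 1 := ⟨m - 1, by omega⟩
  refine ⟨u * w ^ k, TT w₀ * thetaIncl N w, heckeProdG N ℓ y * (PhiB N w : ℍ → ℂ),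
    mul_ne_zero hu (pow_ne_zero k hw), mul_ne_zero (hTT0 _ hw₀) hw', ?_, ⟨?_, ?_⟩, ?_⟩
  · rw [map_mul, map_pow, ← huw', hth, map_mul, map_pow]
    ring
  · exact (heckeProdG_mdiff N ℓ hy).mul (mdiff_PhiB N w)
  · intro z
    have h1 : heckeProdG N ℓ y ^ (k + 1) = heckeProdG N ℓ (PhiB N a : ℍ → ℂ) := by
      rw [← heckeProdG_pow]
      congr 1
      funext z
      exact hroot z
    have h2 := heckeProdG_PhiB N hℓ hℓN hG a u w huw' z
    rw [PhiB_mul', PhiB_pow', Pi.mul_apply, Pi.mul_apply, Pi.pow_apply, ← h2, mul_pow,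
      ← Pi.pow_apply, h1]
    ring
  · have := (heckeProdG_isEqvG N (Gam N) hℓ heqv).mul (isEqvG_PhiB N w)
    have e : heckeChrG N (Gam N) hℓ χ * 1 = heckeChrG N (Gam N) hℓ χ := by
      ext γ
      simp
    rwa [e] at this

/-- diamond equivariance of the character: `f ∘ δ` has the character `χ ∘ cj δ`. -/
theorem hasChr_diaF (δ : Gamma0 N) {m : ℕ} {f : FN N} {χ : ChrG (Gam N)}
    (h : HasChr N m f χ) : HasChr N m (diaF N δ⁻¹ f) (diaChrG N (Gam N) δ χ) := by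
  obtain ⟨a, w₀, y, ha, hw₀, hth, ⟨hy, hroot⟩, heqv⟩ := h
  refine ⟨diaA N δ⁻¹ a, diaF N δ⁻¹ w₀, act (δ : SL(2, ℤ))⁻¹ y, ?_, ?_, ?_, ⟨?_, ?_⟩, ?_⟩
  · intro h0
    exact ha (diaA_injective N δ⁻¹ (h0.trans (map_zero _).symm))
  · intro h0
    exact hw₀ ((diaF N δ⁻¹).injective (h0.trans (map_zero _).symm))
  · rw [← diaF_incl, hth, map_mul, map_pow]
  · exact holB_mdiff_act hy _
  · intro z
    rw [PhiB_diaA, coe_actB, act_apply, act_apply, hroot]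
    rfl
  · exact isEqvG_act N (Gam N) δ heqv

end Fermat.Agent.S48.NVH
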