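import Fermat.Agent.S48.NVH.Kap
import Fermat.Agent.S48.GES1.EmbG0
import Fermat.Agent.S48.TNV.KappaKer

set_option autoImplicit false
set_option linter.unusedSectionVars false
set_option synthInstance.maxHeartbeats 400000

/-!
# S48 / NVH : adapters

* `G0_g0` : the analytic input `GES1.G0 N r (g0 N r)` of the Eichler-Shimura relation (from `T24.GES1.exists_g0`, `theta_alpha`);
* `isKappa` : `T24.NV.kappa N m` satisfies `IsKappa`.
-/

open UpperHalfPlane ModularForm CongruenceSubgroup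
open scoped MatrixGroups Manifold

namespace Fermat.Agent.S48.NVH

open Fermat.Agent.T24 (Cond Gam FN)
open Fermat.Agent.S24 (Kb)
open Fermat.Agent.S48.PER1 Fermat.Agent.GES
open Fermat.Agent.S48.W1 (lr)

variable (N : ℕ) [NeZero N] [Cond N]

/-- the lower right entry of `σ_r` modulo `D`. -/
theorem sig_lr_D {r : ℕ} (hr : r.Prime) (hrN : ¬ r ∣ N) :
    (((sig N r) 1 1 : ℤ) : ZMod (Cond.D N)) = (r : ZMod (Cond.D N)) := by
  have h1 : (((sig N r) 1 1 : ℤ) : ZMod N) = ((r : ℤ) : ZMod N) := by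
    rw [Int.cast_natCast]
    exact lr_sig N hr hrN
  rw [ZMod.intCast_eq_intCast_iff_dvd_sub] at h1
  have h3 : (((sig N r) 1 1 : ℤ) : ZMod (Cond.D N)) = ((r : ℤ) : ZMod (Cond.D N)) := by
    rw [ZMod.intCast_eq_intCast_iff_dvd_sub]
    exact (Int.natCast_dvd_natCast.mpr (Cond.dvd (N := N))).trans h1
  rw [h3, Int.cast_natCast]

theorem g0_eq_inv (r : ℕ) : g0 N r = (⟨sig N r, sig_mem N r⟩ : Gamma0 N)⁻¹ := Subtype.ext rfl

theorem alphaT_eq (r : ℕ) [NeZero r] (f : FN N) :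
    GES1.alphaT N r f = T24.heckeAlphaBar Kb N r f := Subtype.ext rfl

theorem betaT_eq (r : ℕ) [NeZero r] (f : FN N) :
    GES1.betaT N r f = T24.heckeBetaBar Kb N r f := Subtype.ext rfl

theorem G0_g0 {r : ℕ} [NeZero r] (hr : r.Prime) (hrN : ¬ r ∣ N) : GES1.G0 N r (g0 N r) := by
  obtain ⟨g, hg, h⟩ := T24.GES1.exists_g0 N r ((Nat.Prime.coprime_iff_not_dvd hr).2 hrN)
    ⟨sig N r, sig_mem N r⟩ (sig_lr_D N hr hrN)
  refine ⟨T24.theta (N * r) (T24.cuspChart (N * r)) g, fun f => ?_, fun f => ?_⟩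
  · rw [alphaT_eq, T24.GES1.theta_alpha N r g hg f, T24.GES1.stdEmb_apply,
      T24.coe_heckeAlphaBar]
  · rw [betaT_eq, g0_eq_inv, h f]

theorem isKappa (m : ℕ) [NeZero m] : IsKappa N m (T24.NV.kappa N m) :=
  fun ψ f => T24.NV.kappa_eq_mk_iff N m ψ f

end Fermat.Agent.S48.NVH
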