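import Fermat.Agent.S48.PER1.Coset
import Fermat.Agent.NV.HeckeProd

set_option autoImplicit false
set_option linter.unusedSectionVars false

/-!
# S48 / NVH : Hecke and diamond operators on characters and on equivariant functions

Everything is written for an arbitrary group `Γ₁(N) ≤ Γ ≤ Γ₀(N)` (`PER1.IsMid N Γ`); twin of `NV/HeckeHom.lean`, `NV/HeckeProd.lean`.

* `ChrG Γ = (Γ →* ℂˣ)`, `IsEqvG Γ χ h : h (γ z) = χ γ * h z`, `expChrG Γ m ψ γ = exp (2 π i ψ γ / m)`;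
* `heckeChrG N Γ hℓ χ γ = ∏ x, χ (κ_x γ)`, `heckeProdG N ℓ y z = ∏ x, y (β_x z)` (`β_x = PER1.hRep N ℓ x`);
* `diaChrG N Γ δ χ = χ ∘ cj δ`, and `y ∘ δ` is `diaChrG δ χ`-equivariant.
-/

open UpperHalfPlane ModularForm CongruenceSubgroup Matrix.SpecialLinearGroup
open scoped MatrixGroups Manifold

namespace Fermat.Agent.S48.NVH

open Fermat.Agent.S24 Fermat.Agent.S48.PER1
open Fermat.Agent.S16 (HIdx)
open Fermat.Agent.NV (rootU_add rootU_zero rootU_sum)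

/-- characters of `Γ`. -/
abbrev ChrG (Γ : Subgroup SL(2, ℤ)) : Type := Γ →* ℂˣ

/-- `h (γ z) = χ γ * h z`. -/
def IsEqvG (Γ : Subgroup SL(2, ℤ)) (χ : ChrG Γ) (h : ℍ → ℂ) : Prop :=
  ∀ (γ : Γ) (z : ℍ), h ((γ : SL(2, ℤ)) • z) = ((χ γ : ℂˣ) : ℂ) * h z

/-- the character `γ ↦ exp (2 π i ψ γ / m)`. -/
noncomputable def expChrG (Γ : Subgroup SL(2, ℤ)) (m : ℕ) (ψ : Additive Γ →+ ℤ) : ChrG Γ where
  toFun γ := rootU m (ψ (Additive.ofMul γ))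
  map_one' := by rw [ofMul_one, map_zero, rootU_zero]
  map_mul' γ δ := by rw [ofMul_mul, map_add, rootU_add]

theorem expChrG_apply (Γ : Subgroup SL(2, ℤ)) (m : ℕ) (ψ : Additive Γ →+ ℤ) (γ : Γ) :
    expChrG Γ m ψ γ = rootU m (ψ (Additive.ofMul γ)) := rfl

variable (N : ℕ) [NeZero N] (Γ : Subgroup SL(2, ℤ)) [IsMid N Γ]

/-- the Hecke operator on characters: `(T_ℓ χ) γ = ∏_x χ (κ_x γ)`. -/
noncomputable def heckeChrG {ℓ : ℕ} (hℓ : ℓ.Prime) (χ : ChrG Γ) : ChrG Γ :=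
  MonoidHom.mk' (fun γ => ∏ x : HIdx N ℓ, χ (hκ N Γ hℓ γ x)) (by
    intro γ δ
    have : ∀ x, χ (hκ N Γ hℓ (γ * δ) x) =
        χ (hκ N Γ hℓ γ x) * χ (hκ N Γ hℓ δ (hσ N Γ hℓ γ x)) := by
      intro x
      rw [(hecke_cocycle N Γ hℓ γ δ x).2, map_mul]
    simp only [this, Finset.prod_mul_distrib]
    congr 1
    exact Equiv.prod_comp (hσ N Γ hℓ γ) (fun y => χ (hκ N Γ hℓ δ y)))

theorem heckeChrG_apply {ℓ : ℕ} (hℓ : ℓ.Prime) (χ : ChrG Γ) (γ : Γ) :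
    heckeChrG N Γ hℓ χ γ = ∏ x : HIdx N ℓ, χ (hκ N Γ hℓ γ x) := rfl

theorem heckeChrG_expChrG (m : ℕ) {ℓ : ℕ} (hℓ : ℓ.Prime) (ψ ψ' : Additive Γ →+ ℤ)
    (h : ∀ γ : Γ, ψ' (Additive.ofMul γ) = heckeFun N Γ hℓ (fun δ => ψ (Additive.ofMul δ)) γ) :
    heckeChrG N Γ hℓ (expChrG Γ m ψ) = expChrG Γ m ψ' := by
  ext γ
  rw [heckeChrG_apply, expChrG_apply, h, heckeFun, rootU_sum]
  rfl

/-- the diamond operator on characters. -/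
def diaChrG (δ : Gamma0 N) (χ : ChrG Γ) : ChrG Γ := χ.comp (cj N Γ δ)

theorem diaChrG_apply (δ : Gamma0 N) (χ : ChrG Γ) (γ : Γ) :
    diaChrG N Γ δ χ γ = χ (cj N Γ δ γ) := rfl

theorem diaChrG_expChrG (m : ℕ) (δ : Gamma0 N) (ψ ψ' : Additive Γ →+ ℤ)
    (h : ∀ γ : Γ, ψ' (Additive.ofMul γ) = ψ (Additive.ofMul (cj N Γ δ γ))) :
    diaChrG N Γ δ (expChrG Γ m ψ) = expChrG Γ m ψ' := by
  ext γ
  rw [diaChrG_apply, expChrG_apply, expChrG_apply, h]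

/-- `y ∘ δ = act δ⁻¹ y` is equivariant for `χ ∘ cj δ`. -/
theorem isEqvG_act (δ : Gamma0 N) {χ : ChrG Γ} {h : ℍ → ℂ} (he : IsEqvG Γ χ h) :
    IsEqvG Γ (diaChrG N Γ δ χ) (act (δ : SL(2, ℤ))⁻¹ h) := by
  intro γ z
  rw [act_apply, act_apply, inv_inv, diaChrG_apply, ← he, coe_cj, ← mul_smul, ← mul_smul]
  congr 1
  group

/-- `z ↦ ∏_x y (β_x z)`, the product over the Hecke representatives at `ℓ`. -/
noncomputable def heckeProdG (ℓ : ℕ) (y : ℍ → ℂ) (z : ℍ) : ℂ :=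
  ∏ x : HIdx N ℓ, y (hRep N ℓ x.1 • z)

theorem heckeProdG_mdiff (ℓ : ℕ) {y : ℍ → ℂ} (hy : MDiff y) : MDiff (heckeProdG N ℓ y) :=
  NV.heckeProd_mdiff_aux Finset.univ (fun (x : HIdx N ℓ) z => y (hRep N ℓ x.1 • z))
    fun x => S16.ph_mdiff_comp hy (det_hRep_pos N ℓ x.1)

theorem heckeProdG_mul (ℓ : ℕ) (y y' : ℍ → ℂ) :
    heckeProdG N ℓ (y * y') = heckeProdG N ℓ y * heckeProdG N ℓ y' := by
  funext z
  simp only [heckeProdG, Pi.mul_apply, Finset.prod_mul_distrib]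

theorem heckeProdG_pow (ℓ : ℕ) (y : ℍ → ℂ) (k : ℕ) :
    heckeProdG N ℓ (y ^ k) = heckeProdG N ℓ y ^ k := by
  funext z
  simp only [heckeProdG, Pi.pow_apply, Finset.prod_pow]

theorem heckeProdG_isEqvG {ℓ : ℕ} (hℓ : ℓ.Prime) {χ : ChrG Γ} {h : ℍ → ℂ}
    (he : IsEqvG Γ χ h) : IsEqvG Γ (heckeChrG N Γ hℓ χ) (heckeProdG N ℓ h) := by
  intro γ z
  have h1 : ∀ x : HIdx N ℓ, h (hRep N ℓ x.1 • ((γ : SL(2, ℤ)) • z)) =
      ((χ (hκ N Γ hℓ γ x) : ℂˣ) : ℂ) * h (hRep N ℓ (hσ N Γ hℓ γ x).1 • z) := by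
    intro x
    have e1 : hRep N ℓ x.1 • ((γ : SL(2, ℤ)) • z) =
        (hκ N Γ hℓ γ x : SL(2, ℤ)) • (hRep N ℓ (hσ N Γ hℓ γ x).1 • z) := by
      change hRep N ℓ x.1 • (Matrix.SpecialLinearGroup.mapGL ℝ (γ : SL(2, ℤ)) • z) =
        Matrix.SpecialLinearGroup.mapGL ℝ (hκ N Γ hℓ γ x : SL(2, ℤ)) •
          (hRep N ℓ (hσ N Γ hℓ γ x).1 • z)
      rw [← mul_smul, ← mul_smul, hRep_mul]
    rw [e1, he]
  simp only [heckeProdG]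
  rw [Finset.prod_congr rfl fun x _ => h1 x, Finset.prod_mul_distrib, heckeChrG_apply,
    Units.coe_prod]
  congr 1
  exact Equiv.prod_comp (hσ N Γ hℓ γ) (fun x => h (hRep N ℓ x.1 • z))

/-- `∏_x y (β_x z) = (y ∘ σ_ℓ)(ℓ z) ∏_j y ((z + j) / ℓ)`. -/
theorem heckeProdG_eq_pre {ℓ : ℕ} (hℓ : ℓ.Prime) (hℓN : ¬ ℓ ∣ N) (y : ℍ → ℂ) :
    heckeProdG N ℓ y = pre ℓ 0 1 (act (sig N ℓ)⁻¹ y) * ∏ j : Fin ℓ, pre 1 (j : ℕ) ℓ y := by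
  funext z
  have h1 : heckeProdG N ℓ y z = ∏ x : Option (Fin ℓ), y (hRep N ℓ x • z) :=
    Fintype.prod_equiv (Equiv.subtypeUnivEquiv fun _ _ => hℓN) _ _ fun x => rfl
  rw [h1, Fintype.prod_option, Pi.mul_apply, Finset.prod_apply]
  congr 1
  · rw [pre, act_apply, inv_inv, hRep_none, mul_smul]
    have : (((ℓ : ℕ) : ℂ) * z + ((0 : ℕ) : ℂ)) / ((1 : ℕ) : ℂ) = ((heckeDiagMatrix ℓ • z : ℍ) : ℂ) := by
      rw [coe_heckeDiagMatrix_smul hℓ.ne_zero]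
      simp
    rw [this, ofComplex_apply]
    rfl
  · refine Finset.prod_congr rfl fun j _ => ?_
    rw [pre, hRep_some]
    congr 1
    have : (((1 : ℕ) : ℂ) * z + (((j : ℕ) : ℕ) : ℂ)) / ((ℓ : ℕ) : ℂ) =
        ((heckeMatrix ℓ j • z : ℍ) : ℂ) := by
      rw [coe_heckeMatrix_smul hℓ.ne_zero]
      simp
    rw [this, ofComplex_apply]

end Fermat.Agent.S48.NVH
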