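import Fermat.Agent.S48.NVH.Chr
import Fermat.Agent.S48.PER1.GamInst
import Fermat.Agent.S48.GES1.Main
import Fermat.Agent.NV.HeckeExp

set_option autoImplicit false
set_option linter.style.haveILetI false
set_option linter.unusedSectionVars false

/-!
# S48 / NVH : the function on `ℍ` attached to `T_ℓ a` (twin of `NV/HeckeExp.lean` on `T24`)

The function on `ℍ` attached to `GES1.heckeFT N ℓ g0 a`, `g0 = σ_ℓ⁻¹`, is `z ↦ ∏_x a (β_x z)`, `β_x = PER1.hRep N ℓ x`.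
-/

open UpperHalfPlane ModularForm CongruenceSubgroup
open scoped MatrixGroups Manifold

namespace Fermat.Agent.S48.NVH

open Fermat.Agent.S24 hiding FN A0 Btil actB PhiB thetaIncl Btil_le_perSub act_PhiB TInf_PhiB
  thetaIncl_injective thetaIncl_exists_div coe_actB
open Fermat.Agent.T24 hiding sig
open Fermat.Agent.S48.PER1
open Fermat.Agent.NV (perSub_le_of_dvd TInf_level mem_perSub_one pre_mem_perSub TInf_pre rootU_zero)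
open Fermat.Agent.NV.HeckeExp (qExpand_congr twist_eq rootU_eq_pow exists_zeta)
open ModularCurve

/-- `σ_ℓ⁻¹` as an element of `Γ₀(N)`. -/
noncomputable def g0 (N ℓ : ℕ) [NeZero N] : Gamma0 N := ⟨(sig N ℓ)⁻¹, inv_mem (sig_mem N ℓ)⟩

theorem coe_g0 (N ℓ : ℕ) [NeZero N] : ((g0 N ℓ : Gamma0 N) : SL(2, ℤ)) = (sig N ℓ)⁻¹ := rfl

theorem T_mem_Gam (N : ℕ) [Cond N] : ModularGroup.T ∈ Gam N := by
  refine ⟨NV.HeckeExp.T_mem_Gamma0 N, Or.inl ?_⟩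
  simp [ModularGroup.T]

variable (N : ℕ) [NeZero N] [Cond N]

theorem PhiB_mem_perSub_one (a : A0 N) : (PhiB N a : ℍ → ℂ) ∈ perSub 1 := by
  apply mem_perSub_one (Btil_le_perSub N (PhiB N a).2)
  have h := act_PhiB N ModularGroup.T (T_mem_Gam N) a
  exact congrArg Subtype.val h

theorem TInf_one_PhiB (a : A0 N) :
    TInf 1 ⟨(PhiB N a : ℍ → ℂ), PhiB_mem_perSub_one N a⟩ =
      coeffMap iotaK (a : LaurentSeries Kb) := by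
  haveI : NeZero (N / 1) := ⟨by rw [Nat.div_one]; exact NeZero.ne N⟩
  have h1 := TInf_level (one_dvd N) ⟨(PhiB N a : ℍ → ℂ), PhiB_mem_perSub_one N a⟩
  have h2 := TInf_PhiB N a
  rw [qExpand_congr (Nat.div_one N)] at h1
  exact qExpand_injective N (h1.symm.trans h2)

theorem TInf_PhiB_level (ℓ : ℕ) [NeZero ℓ] (a : A0 N) :
    TInf ℓ ⟨(PhiB N a : ℍ → ℂ), perSub_le_of_dvd (one_dvd ℓ) (PhiB_mem_perSub_one N a)⟩ =
      qExpand ℂ ℓ (coeffMap iotaK (a : LaurentSeries Kb)) := by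
  haveI : NeZero (ℓ / 1) := ⟨by rw [Nat.div_one]; exact NeZero.ne ℓ⟩
  have h1 := TInf_level (one_dvd ℓ) ⟨(PhiB N a : ℍ → ℂ), PhiB_mem_perSub_one N a⟩
  rw [qExpand_congr (Nat.div_one ℓ), TInf_one_PhiB] at h1
  exact h1

/-- `(PhiB a) ∘ σ_ℓ = PhiB (⟨ℓ⟩ a)`. -/
theorem act_sig_PhiB (ℓ : ℕ) (a : A0 N) :
    act (sig N ℓ)⁻¹ (PhiB N a : ℍ → ℂ) = (PhiB N (diaA N (g0 N ℓ) a) : ℍ → ℂ) := by
  rw [PhiB_diaA, coe_actB, coe_g0]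

theorem heckeProdG_PhiB_eq {ℓ : ℕ} (hℓ : ℓ.Prime) (hℓN : ¬ ℓ ∣ N) (a : A0 N) :
    heckeProdG N ℓ (PhiB N a : ℍ → ℂ) = pre ℓ 0 1 (PhiB N (diaA N (g0 N ℓ) a) : ℍ → ℂ) *
      ∏ j : Fin ℓ, pre 1 (j : ℕ) ℓ (PhiB N a : ℍ → ℂ) := by
  rw [heckeProdG_eq_pre N hℓ hℓN, act_sig_PhiB]

theorem heckeProdG_mem {ℓ : ℕ} [NeZero ℓ] (hℓ : ℓ.Prime) (hℓN : ¬ ℓ ∣ N) (a : A0 N) :
    heckeProdG N ℓ (PhiB N a : ℍ → ℂ) ∈ perSub ℓ := by
  rw [heckeProdG_PhiB_eq N hℓ hℓN]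
  exact (perSub ℓ).mul_mem (pre_mem_perSub (PhiB_mem_perSub_one N _) hℓ.pos one_pos (one_dvd ℓ))
    ((perSub ℓ).prod_mem fun j _ =>
      pre_mem_perSub (PhiB_mem_perSub_one N a) one_pos hℓ.pos dvd_rfl)

theorem TInf_heckeProdG {ℓ : ℕ} [NeZero ℓ] (hℓ : ℓ.Prime) (hℓN : ¬ ℓ ∣ N) (a : A0 N) :
    TInf ℓ ⟨heckeProdG N ℓ (PhiB N a : ℍ → ℂ), heckeProdG_mem N hℓ hℓN a⟩ =
      qExpand ℂ ℓ (qExpand ℂ ℓ (coeffMap iotaK (diaA N (g0 N ℓ) a : LaurentSeries Kb))) *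
        ∏ j : Fin ℓ, twist (rootU ℓ ((j : ℕ) : ℤ)) (coeffMap iotaK (a : LaurentSeries Kb)) := by
  have h1 := PhiB_mem_perSub_one N a
  have h1' := PhiB_mem_perSub_one N (diaA N (g0 N ℓ) a)
  have e : (⟨heckeProdG N ℓ (PhiB N a : ℍ → ℂ), heckeProdG_mem N hℓ hℓN a⟩ : perSub ℓ) =
      ⟨pre ℓ 0 1 (PhiB N (diaA N (g0 N ℓ) a) : ℍ → ℂ),
          pre_mem_perSub h1' hℓ.pos one_pos (one_dvd ℓ)⟩ *
        ∏ j : Fin ℓ, ⟨pre 1 (j : ℕ) ℓ (PhiB N a : ℍ → ℂ),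
          pre_mem_perSub h1 one_pos hℓ.pos dvd_rfl⟩ := by
    apply Subtype.ext
    rw [Subring.coe_mul, SubmonoidClass.coe_finsetProd]
    exact heckeProdG_PhiB_eq N hℓ hℓN _
  haveI i1 : NeZero (ℓ * (ℓ / 1)) := ⟨by rw [Nat.div_one]; exact mul_ne_zero hℓ.ne_zero hℓ.ne_zero⟩
  haveI i2 : NeZero (1 * (ℓ / ℓ)) := ⟨by rw [Nat.div_self hℓ.pos]; simp⟩
  rw [e, map_mul, map_prod, TInf_pre h1' hℓ.pos one_pos (one_dvd ℓ), TInf_one_PhiB]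
  congr 1
  · have h2 : rootU 1 ((0 : ℕ) : ℤ) = 1 := by rw [Nat.cast_zero, rootU_zero]
    rw [h2, twist_one, qExpand_congr (show ℓ * (ℓ / 1) = ℓ * ℓ by rw [Nat.div_one]),
      GES.qExpand_mul']
  · refine Finset.prod_congr rfl fun j _ => ?_
    rw [TInf_pre h1 one_pos hℓ.pos dvd_rfl, TInf_one_PhiB,
      qExpand_congr (show 1 * (ℓ / ℓ) = 1 by rw [Nat.div_self hℓ.pos]), qExpand_one_apply]

/-- the expansion of `heckeProdG` is the expansion of `heckeFT`. -/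
theorem TInf_heckeProdG_eq {ℓ : ℕ} [NeZero ℓ] (hℓ : ℓ.Prime) (hℓN : ¬ ℓ ∣ N)
    (hG : GES1.G0 N ℓ (g0 N ℓ)) (a : A0 N) :
    TInf ℓ ⟨heckeProdG N ℓ (PhiB N a : ℍ → ℂ), heckeProdG_mem N hℓ hℓN a⟩ =
      qExpand ℂ ℓ (coeffMap iotaK
        (GES1.heckeFT N ℓ (g0 N ℓ) (thetaIncl N a) : LaurentSeries Kb)) := by
  obtain ⟨ζ, hζ, hmap⟩ := exists_zeta ℓ
  have h1 := congrArg (coeffMap iotaK) (GES1.starT hℓ hℓN hG ζ hζ (thetaIncl N a))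
  rw [coeffMap_qExpand, map_mul, map_prod, coeffMap_qExpand, coeffMap_qExpand, diaF_incl] at h1
  rw [h1, TInf_heckeProdG N hℓ hℓN]
  congr 1
  refine Finset.prod_congr rfl fun j _ => ?_
  rw [S28.coeffMap_twist, map_pow, hmap, twist_eq, rootU_eq_pow]
  rfl

theorem heckeProdG_PhiB {ℓ : ℕ} [NeZero ℓ] (hℓ : ℓ.Prime) (hℓN : ¬ ℓ ∣ N)
    (hG : GES1.G0 N ℓ (g0 N ℓ)) (a u w : A0 N)
    (h : GES1.heckeFT N ℓ (g0 N ℓ) (thetaIncl N a) * thetaIncl N w = thetaIncl N u) (z : ℍ) :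
    heckeProdG N ℓ (PhiB N a : ℍ → ℂ) z * (PhiB N w : ℍ → ℂ) z = (PhiB N u : ℍ → ℂ) z := by
  have h1 : (GES1.heckeFT N ℓ (g0 N ℓ) (thetaIncl N a) : LaurentSeries Kb) *
      (w : LaurentSeries Kb) = (u : LaurentSeries Kb) :=
    congrArg (fun t : FN N => (t : LaurentSeries Kb)) h
  have h2 := congrArg (fun t => ModularCurve.qExpand ℂ ℓ (ModularCurve.coeffMap iotaK t)) h1
  simp only [map_mul] at h2
  rw [← TInf_heckeProdG_eq N hℓ hℓN hG a, ← TInf_PhiB_level N ℓ w,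
    ← TInf_PhiB_level N ℓ u, ← map_mul] at h2
  have h3 := TInf_injective ℓ h2
  exact congrFun (congrArg Subtype.val h3) z

end Fermat.Agent.S48.NVH
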