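import Fermat.Agent.S48.NVH.Has
import Fermat.Agent.S48.PER1.Lattice

set_option autoImplicit false
set_option linter.unusedSectionVars false
set_option synthInstance.maxHeartbeats 400000

/-!
# S48 / NVH : Hecke and diamond equivariance of `κ`

`IsKappa N m κ` : `κ ψ` is the class of any `f` with character `γ ↦ exp (2 π i ψ γ / m)` (this is `kappa_eq_mk_iff` of the twin of `NV/Kappa.lean`).
For such a `κ`:  `κ (latT ℓ ψ) = TV (κ ψ)` and `κ (latD d ψ) = diaV δ⁻¹ (κ ψ)`, `δ ∈ Γ₀(N)` with lower right entry `d`.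
-/

open UpperHalfPlane ModularForm CongruenceSubgroup
open scoped MatrixGroups Manifold

namespace Fermat.Agent.S48.NVH

open Fermat.Agent.T24 (Cond Gam FN)
open Fermat.Agent.S48.PER1 Fermat.Agent.GES
open Fermat.Agent.S48.W1 (lr)

/-- the specification of `κ_m`. -/
def IsKappa (N m : ℕ) [NeZero N] [Cond N] (κ : Lat (Gam N) →+ GES1.VB (GES1.F0 N) m) : Prop :=
  ∀ (ψ : Lat (Gam N)) (f : GES1.DB (GES1.F0 N) m),
    κ ψ = Vm.mk f ↔ HasChr N m ((f : (FN N)ˣ) : FN N) (expChrG (Gam N) m ψ.1)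

variable {N m : ℕ} [NeZero N] [Cond N] [NeZero m] {κ : Lat (Gam N) →+ GES1.VB (GES1.F0 N) m}

/-- `κ (T_ℓ ψ) = T_ℓ (κ ψ)`. -/
theorem IsKappa.latT (hκ : IsKappa N m κ) {ℓ : ℕ} [NeZero ℓ] (hℓ : ℓ.Prime) (hℓN : ¬ ℓ ∣ N)
    (hG : GES1.G0 N ℓ (g0 N ℓ)) (ψ : Lat (Gam N)) :
    κ (PER1.latT N (Gam N) ℓ ψ) = (GES1.heckeT hℓ hℓN hG).TV m (κ ψ) := by
  have hm : 0 < m := Nat.pos_of_ne_zero (NeZero.ne m)
  obtain ⟨f, hf⟩ := Vm.mk_surjective (κ ψ)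
  rw [← hf, GES1.HeckeAt.TV_mk, hκ]
  have h1 := hasChr_heckeFT N hℓ hℓN hG hm ((hκ ψ f).1 hf.symm)
  rw [heckeChrG_expChrG N (Gam N) m hℓ ψ.1 (PER1.latT N (Gam N) ℓ ψ).1
    (fun γ => latT_apply N (Gam N) hℓ hℓN ψ γ)] at h1
  exact h1

/-- `κ (⟨d⟩ ψ) = ⟨δ⁻¹⟩ (κ ψ)`. -/
theorem IsKappa.latD (hκ : IsKappa N m κ) (d : (ZMod N)ˣ) (δ : Gamma0 N)
    (hδ : lr N (δ : SL(2, ℤ)) = d) (ψ : Lat (Gam N)) :
    κ (PER1.latD N (Gam N) d ψ) = GES1.diaV N m δ⁻¹ (κ ψ) := by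
  obtain ⟨f, hf⟩ := Vm.mk_surjective (κ ψ)
  rw [← hf, GES1.diaV_mk, hκ]
  have h1 := hasChr_diaF N δ ((hκ ψ f).1 hf.symm)
  rw [diaChrG_expChrG N (Gam N) m δ ψ.1 (PER1.latD N (Gam N) d ψ).1
    (fun γ => latD_apply N (Gam N) d δ hδ ψ γ)] at h1
  exact h1

end Fermat.Agent.S48.NVH
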